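import Mathlib

/-!
# Local densities of finite intersections of half-spaces
-/

set_option autoImplicit false

noncomputable section

namespace Fermat.Agent.DehnInvariant

open MeasureTheory Metric Set Filter Topology Function
open scoped RealInnerProductSpace Pointwise ENNReal

/-- Euclidean space of dimension three. -/
abbrev Space : Type := EuclideanSpace ℝ (Fin 3)

/-- The density of `S` at `x`: the limit of `vol (S ∩ B(x, r)) / vol B(x, r)` as `r → 0+`. -/
def density (S : Set Space) (x : Space) : ℝ :=
  limUnder (𝓝[>] (0 : ℝ)) fun r =>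
    (volume (S ∩ closedBall x r)).toReal / (volume (closedBall x r)).toReal

/-- The share of the unit ball lying in `C`. -/
def frac (C : Set Space) : ℝ :=
  (volume (C ∩ closedBall 0 1)).toReal / (volume (closedBall (0 : Space) 1)).toReal

/-- `S` fills the share `d` of every small ball about `x`. -/
def HasDensity (S : Set Space) (x : Space) (d : ℝ) : Prop :=
  ∀ᶠ r in 𝓝[>] (0 : ℝ),
    (volume (S ∩ closedBall x r)).toReal = d * (volume (closedBall x r)).toReal

theorem volume_ball_toReal_pos {x : Space} {r : ℝ} (hr : 0 < r) :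
    0 < (volume (closedBall x r)).toReal :=
  ENNReal.toReal_pos (measure_closedBall_pos volume x hr).ne' measure_closedBall_lt_top.ne

theorem volume_inter_ball_ne_top (S : Set Space) (x : Space) (r : ℝ) :
    volume (S ∩ closedBall x r) ≠ ∞ :=
  (lt_of_le_of_lt (measure_mono inter_subset_right) measure_closedBall_lt_top).ne

theorem HasDensity.density_eq {S : Set Space} {x : Space} {d : ℝ} (h : HasDensity S x d) :
    density S x = d := by
  refine Tendsto.limUnder_eq (Tendsto.congr' ?_ tendsto_const_nhds)
  filter_upwards [h, self_mem_nhdsWithin] with r hr h0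
  rw [hr, mul_div_assoc, div_self (volume_ball_toReal_pos h0).ne', mul_one]

theorem HasDensity.iUnion {κ : Type*} [Fintype κ] {T : κ → Set Space} {x : Space} {d : κ → ℝ}
    (hm : ∀ k, MeasurableSet (T k)) (hd : Pairwise (AEDisjoint volume on T))
    (h : ∀ k, HasDensity (T k) x (d k)) : HasDensity (⋃ k, T k) x (∑ k, d k) := by
  filter_upwards [eventually_all.2 h] with r hr
  rw [iUnion_inter, measure_iUnion₀ (fun i j hij => (hd hij).mono inter_subset_left inter_subset_left)
    (fun k => ((hm k).inter measurableSet_closedBall).nullMeasurableSet), tsum_fintype,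
    ENNReal.toReal_sum (fun k _ => volume_inter_ball_ne_top _ _ _), Finset.sum_mul]
  exact Finset.sum_congr rfl fun k _ => hr k

theorem measurePreserving_isometry (e : Space ≃ᵢ Space) : MeasurePreserving e volume volume := by
  set L := e.toRealAffineIsometryEquiv.linearIsometryEquiv
  have h : (e : Space → Space) = (fun x => x + e 0) ∘ L := by
    funext x
    have := e.toRealAffineIsometryEquiv.map_vadd 0 x
    simpa [vadd_eq_add] using this
  rw [h]
  exact (measurePreserving_add_right volume (e 0)).comp L.measurePreserving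

theorem volume_isometry_image (e : Space ≃ᵢ Space) (S : Set Space) :
    volume (e '' S) = volume S := by
  have h := (measurePreserving_isometry e).measure_preimage_emb
    e.toHomeomorph.measurableEmbedding (e '' S)
  rw [e.injective.preimage_image] at h
  exact h.symm

theorem density_image (e : Space ≃ᵢ Space) (S : Set Space) (x : Space) :
    density (e '' S) (e x) = density S x := by
  have h : ∀ r, volume (e '' S ∩ closedBall (e x) r) = volume (S ∩ closedBall x r) ∧
      volume (closedBall (e x) r) = volume (closedBall x r) := fun r => by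
    rw [← e.image_closedBall, ← image_inter e.injective]
    exact ⟨volume_isometry_image e _, volume_isometry_image e _⟩
  simp only [density, (h _).1, (h _).2]

theorem frac_preimage (L : Space ≃ₗᵢ[ℝ] Space) (C : Set Space) : frac (L ⁻¹' C) = frac C := by
  have h : L ⁻¹' C ∩ closedBall 0 1 = L ⁻¹' (C ∩ closedBall 0 1) := by
    ext v; simp
  rw [frac, frac, h, L.measurePreserving.measure_preimage_emb L.toHomeomorph.measurableEmbedding]

/-- The set `{x | ∀ i, 0 ≤ ⟪n i, x⟫ + c i}`. -/
def hpoly {ι : Type*} (n : ι → Space) (c : ι → ℝ) : Set Space :=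
  {x | ∀ i, 0 ≤ ⟪n i, x⟫ + c i}

/-- The cone of the constraints active at `x`. -/
def activeCone {ι : Type*} (n : ι → Space) (c : ι → ℝ) (x : Space) : Set Space :=
  {v | ∀ i, ⟪n i, x⟫ + c i = 0 → 0 ≤ ⟪n i, v⟫}

theorem isClosed_hpoly {ι : Type*} (n : ι → Space) (c : ι → ℝ) : IsClosed (hpoly n c) := by
  simp only [hpoly, ofPred_forall]
  exact isClosed_iInter fun i => isClosed_le continuous_const (by fun_prop)

theorem measurableSet_hpoly {ι : Type*} (n : ι → Space) (c : ι → ℝ) :
    MeasurableSet (hpoly n c) :=
  (isClosed_hpoly n c).measurableSet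

theorem hasDensity_hpoly_out {ι : Type*} (n : ι → Space) (c : ι → ℝ) {x : Space}
    (hx : x ∉ hpoly n c) : HasDensity (hpoly n c) x 0 := by
  obtain ⟨ε, hε, hsub⟩ := nhds_basis_closedBall.mem_iff.1
    ((isClosed_hpoly n c).isOpen_compl.mem_nhds hx)
  filter_upwards [Ioo_mem_nhdsGT hε] with r hr
  rw [(subset_compl_iff_disjoint_left.1
    ((closedBall_subset_closedBall hr.2.le).trans hsub)).inter_eq]
  simp

theorem hasDensity_hpoly {ι : Type*} [Fintype ι] (n : ι → Space) (c : ι → ℝ) {x : Space}
    (hx : x ∈ hpoly n c) : HasDensity (hpoly n c) x (frac (activeCone n c x)) := by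
  have hsm : ∀ i, ∀ᶠ r in 𝓝[>] (0 : ℝ), ⟪n i, x⟫ + c i ≠ 0 → ‖n i‖ * r ≤ ⟪n i, x⟫ + c i := by
    intro i
    rcases eq_or_ne (⟪n i, x⟫ + c i) 0 with h | h
    · exact Eventually.of_forall fun r hr => absurd h hr
    have ht : Tendsto (fun r : ℝ => ‖n i‖ * r) (𝓝[>] 0) (𝓝 0) :=
      Tendsto.mono_left ((continuous_const.mul continuous_id).tendsto' 0 0 (by simp))
        nhdsWithin_le_nhds
    filter_upwards [ht.eventually_le_const (lt_of_le_of_ne (hx i) (Ne.symm h))] with r hr _
    exact hr
  filter_upwards [eventually_all.2 hsm, self_mem_nhdsWithin] with r hr h0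
  have hr0 : (0 : ℝ) < r := h0
  have hball : closedBall x r = x +ᵥ r • closedBall (0 : Space) 1 :=
    (affinity_unitClosedBall hr0.le x).symm
  have hset : hpoly n c ∩ closedBall x r = x +ᵥ r • (activeCone n c x ∩ closedBall 0 1) := by
    ext y
    simp only [mem_inter_iff, mem_vadd_set_iff_neg_vadd_mem, mem_smul_set_iff_inv_smul_mem₀ hr0.ne',
      vadd_eq_add, mem_closedBall, dist_eq_norm, sub_zero, norm_smul, norm_inv, Real.norm_eq_abs,
      abs_of_pos hr0, inv_mul_le_iff₀ hr0, mul_one, neg_add_eq_sub]
    refine and_congr_left fun hy => ?_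
    have hkey : ∀ i, ⟪n i, y⟫ + c i = ⟪n i, x⟫ + c i + ⟪n i, y - x⟫ := fun i => by
      rw [inner_sub_right]; ring
    constructor
    · intro h i hi
      rw [real_inner_smul_right]
      exact mul_nonneg (inv_nonneg.2 hr0.le) (by linarith [h i, hkey i])
    · intro h i
      rw [hkey i]
      rcases eq_or_ne (⟪n i, x⟫ + c i) 0 with hi | hi
      · have := h i hi
        rw [real_inner_smul_right] at this
        linarith [nonneg_of_mul_nonneg_right this (inv_pos.2 hr0)]
      · have h1 := (abs_le.1 (abs_real_inner_le_norm (n i) (y - x))).1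
        have h2 : ‖n i‖ * ‖y - x‖ ≤ ‖n i‖ * r := mul_le_mul_of_nonneg_left hy (norm_nonneg _)
        linarith [hr i hi]
  rw [hset, hball, measure_vadd, measure_vadd, Measure.addHaar_smul, Measure.addHaar_smul,
    ENNReal.toReal_mul, ENNReal.toReal_mul, frac]
  field_simp [(volume_ball_toReal_pos (x := (0 : Space)) one_pos).ne']

theorem exists_hasDensity_hpoly {ι : Type*} [Fintype ι] (n : ι → Space) (c : ι → ℝ) (x : Space) :
    ∃ d, HasDensity (hpoly n c) x d := by
  by_cases hx : x ∈ hpoly n c
  · exact ⟨_, hasDensity_hpoly n c hx⟩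
  · exact ⟨_, hasDensity_hpoly_out n c hx⟩

end Fermat.Agent.DehnInvariant
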