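import Fermat.Agent.DehnInvariant.Wedge

/-!
# The Dehn invariant of a tetrahedron as an integral over its edges
-/

set_option autoImplicit false

noncomputable section

namespace Fermat.Agent.DehnInvariant

open MeasureTheory Metric Set Filter Real
open scoped RealInnerProductSpace Pointwise ENNReal

/-- `∫ f (2π · density) dH¹`: for a polyhedron, the sum of `length · f (dihedral angle)` over its
edges when `f π = 0`. -/
def dehn (f : ℝ →+ ℝ) (S : Set Space) : ℝ := ∫ x, f (2 * π * density S x) ∂μH[1]

/-- The solid tetrahedron with vertices `p`. -/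
def tetra (p : Fin 4 → Space) : Set Space := convexHull ℝ (range p)

/-- The functions `⟪n i, ·⟫ + c i` are the barycentric coordinates of `p`. -/
def IsDual (p n : Fin 4 → Space) (c : Fin 4 → ℝ) : Prop :=
  ∀ i j, ⟪n i, p j⟫ + c i = if i = j then 1 else 0

theorem f_two_pi {f : ℝ →+ ℝ} (hf : f π = 0) : f (2 * π) = 0 := by
  rw [two_mul, map_add, hf, add_zero]

theorem f_pi_half {f : ℝ →+ ℝ} (hf : f π = 0) : f (π / 2) = 0 := by
  have h : f (π / 2) + f (π / 2) = 0 := by rw [← map_add, add_halves, hf]
  linarith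

theorem IsDual.affineIndependent {p n : Fin 4 → Space} {c : Fin 4 → ℝ} (h : IsDual p n c) :
    AffineIndependent ℝ p := by
  rw [affineIndependent_iff]
  intro s w hw hsum i hi
  have h1 : ∑ j ∈ s, w j * (⟪n i, p j⟫ + c i) = w i := by simp [h i, hi]
  simp only [mul_add, Finset.sum_add_distrib, ← Finset.sum_mul, hw, zero_mul, add_zero,
    ← real_inner_smul_right, ← inner_sum, hsum, inner_zero_right] at h1
  exact h1.symm

/-- The affine basis given by four independent points. -/
def tetraBasis {p : Fin 4 → Space} (hp : AffineIndependent ℝ p) : AffineBasis (Fin 4) ℝ Space :=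
  ⟨p, hp, hp.affineSpan_eq_top_iff_card_eq_finrank_add_one.2 (by simp)⟩

theorem exists_isDual {p : Fin 4 → Space} (hp : AffineIndependent ℝ p) :
    ∃ n c, IsDual p n c := by
  set b := tetraBasis hp
  refine ⟨fun i => (InnerProductSpace.toDual ℝ Space).symm
    (b.coord i).linear.toContinuousLinearMap, fun i => b.coord i 0, fun i j => ?_⟩
  rw [InnerProductSpace.toDual_symm_apply, LinearMap.coe_toContinuousLinearMap']
  have h := (b.coord i).map_vadd 0 (p j)
  simp only [vadd_eq_add, add_zero] at h
  rw [← h]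
  exact b.coord_apply i j

theorem IsDual.expansion {p n : Fin 4 → Space} {c : Fin 4 → ℝ} (h : IsDual p n c) (x : Space) :
    ∑ j, (⟪n j, x⟫ + c j) • p j = x ∧ ∑ j, (⟪n j, x⟫ + c j) = 1 ∧
      ∀ i, (tetraBasis h.affineIndependent).coord i x = ⟪n i, x⟫ + c i := by
  set b := tetraBasis h.affineIndependent
  have hb : ⇑b = p := rfl
  have h1 := b.sum_coord_apply_eq_one x
  have h2 : ∑ j, b.coord j x • p j = x := by
    have := b.affineCombination_coord_eq_self x
    rwa [hb, Finset.univ.affineCombination_eq_linear_combination p _ h1] at this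
  have hc : ∀ i, ⟪n i, x⟫ + c i = b.coord i x := fun i => by
    calc ⟪n i, x⟫ + c i = ∑ j, b.coord j x * (⟪n i, p j⟫ + c i) := by
          simp only [mul_add, Finset.sum_add_distrib, ← Finset.sum_mul, h1, one_mul,
            ← real_inner_smul_right, ← inner_sum, h2]
      _ = _ := by simp [h i]
  simp only [hc, h1, h2, true_and]
  exact fun i => trivial

theorem IsDual.tetra_eq {p n : Fin 4 → Space} {c : Fin 4 → ℝ} (h : IsDual p n c) :
    tetra p = hpoly n c := by
  have := (tetraBasis h.affineIndependent).convexHull_eq_nonneg_coord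
  rw [show ⇑(tetraBasis h.affineIndependent) = p from rfl] at this
  rw [tetra, this]
  ext x
  simp [hpoly, (h.expansion x).2.2]

theorem isClosed_tetra (p : Fin 4 → Space) : IsClosed (tetra p) :=
  ((finite_range p).isCompact_convexHull (𝕜 := ℝ)).isClosed

theorem exists_third : ∀ i j : Fin 4, ∃ k : Fin 4, k ≠ i ∧ k ≠ j := by decide

theorem exists_fourth : ∀ i j k : Fin 4, ∃ l : Fin 4, i ≠ l ∧ j ≠ l ∧ k ≠ l := by decide

theorem IsDual.normals_independent {p n : Fin 4 → Space} {c : Fin 4 → ℝ} (h : IsDual p n c)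
    {i j : Fin 4} (hij : i ≠ j) : LinearIndependent ℝ ![n i, n j] := by
  rw [LinearIndependent.pair_iff]
  intro a b hab
  obtain ⟨k, hki, hkj⟩ := exists_third i j
  have key : ∀ m, a * ((if i = m then 1 else 0) - if i = k then 1 else 0) +
      b * ((if j = m then 1 else 0) - if j = k then 1 else 0) = 0 := fun m => by
    have h0 := congrArg (fun v => ⟪v, p m - p k⟫) hab
    simp only [inner_add_left, real_inner_smul_left, inner_zero_left, inner_sub_right] at h0
    rw [← h i m, ← h i k, ← h j m, ← h j k]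
    linear_combination h0
  have h1 := key i
  have h2 := key j
  simp [hij, hij.symm, Ne.symm hki, Ne.symm hkj] at h1 h2
  exact ⟨h1, h2⟩

theorem frac_activeCone_none {ι : Type*} {n : ι → Space} {c : ι → ℝ} {x : Space}
    (h : ∀ i, ⟪n i, x⟫ + c i ≠ 0) : frac (activeCone n c x) = 1 := by
  rw [show activeCone n c x = univ from eq_univ_of_forall fun v i hi => absurd hi (h i), frac_univ]

theorem frac_activeCone_one {ι : Type*} {n : ι → Space} {c : ι → ℝ} {x : Space} {i : ι}
    (hn : n i ≠ 0) (hi : ⟪n i, x⟫ + c i = 0) (h : ∀ j, j ≠ i → ⟪n j, x⟫ + c j ≠ 0) :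
    frac (activeCone n c x) = 1 / 2 := by
  rw [← frac_half hn]
  congr 1
  ext v
  refine ⟨fun hv => hv i hi, fun hv j hj => ?_⟩
  rcases eq_or_ne j i with rfl | hne
  · exact hv
  · exact absurd hj (h j hne)

theorem frac_activeCone_two {ι : Type*} {n : ι → Space} {c : ι → ℝ} {x : Space} {i j : ι}
    (hli : LinearIndependent ℝ ![n i, n j]) (hi : ⟪n i, x⟫ + c i = 0) (hj : ⟪n j, x⟫ + c j = 0)
    (h : ∀ k, k ≠ i → k ≠ j → ⟪n k, x⟫ + c k ≠ 0) :
    2 * π * frac (activeCone n c x) = dihedral (n i) (n j) := by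
  have hset : activeCone n c x = {v | 0 ≤ ⟪n i, v⟫ ∧ 0 ≤ ⟪n j, v⟫} := by
    ext v
    refine ⟨fun hv => ⟨hv i hi, hv j hj⟩, fun hv k hk => ?_⟩
    rcases eq_or_ne k i with rfl | hki
    · exact hv.1
    rcases eq_or_ne k j with rfl | hkj
    · exact hv.2
    · exact absurd hk (h k hki hkj)
  rw [hset, frac_wedge hli]
  field_simp

/-- On the segment `[p k, p l]` the coordinates opposite `p k`, `p l` vanish, and conversely. -/
theorem IsDual.mem_segment_iff {p n : Fin 4 → Space} {c : Fin 4 → ℝ} (h : IsDual p n c)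
    (i j k l : Fin 4) (hd : [i, j, k, l].Nodup) (x : Space) :
    x ∈ segment ℝ (p k) (p l) ↔
      x ∈ hpoly n c ∧ ⟪n i, x⟫ + c i = 0 ∧ ⟪n j, x⟫ + c j = 0 := by
  simp only [List.nodup_cons, List.mem_cons, List.not_mem_nil, or_false, not_or, List.nodup_nil,
    and_true] at hd
  obtain ⟨⟨hij, hik, hil⟩, ⟨hjk, hjl⟩, hkl, -⟩ := hd
  constructor
  · rintro ⟨a, b, ha, hb, hab, rfl⟩
    have hval : ∀ m, ⟪n m, a • p k + b • p l⟫ + c m =
        a * (if m = k then 1 else 0) + b * (if m = l then 1 else 0) := fun m => by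
      rw [← h m k, ← h m l, inner_add_right, real_inner_smul_right, real_inner_smul_right]
      linear_combination -(c m) * hab
    refine ⟨fun m => ?_, by simp [hval, hik, hil], by simp [hval, hjk, hjl]⟩
    rw [hval m]
    exact add_nonneg (mul_nonneg ha (by positivity)) (mul_nonneg hb (by positivity))
  · rintro ⟨hx, hi, hj⟩
    have huniv : (Finset.univ : Finset (Fin 4)) = {i, j, k, l} :=
      (Finset.eq_univ_of_card _ (by simp [*])).symm
    obtain ⟨h1, h2, -⟩ := h.expansion x
    rw [huniv] at h1 h2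
    simp [hij, hik, hil, hjk, hjl, hkl, hi, hj] at h1 h2
    exact ⟨_, _, hx k, hx l, h2, h1⟩

theorem IsDual.eq_vertex {p n : Fin 4 → Space} {c : Fin 4 → ℝ} (h : IsDual p n c) {x : Space}
    {i j k : Fin 4} (hij : i ≠ j) (hik : i ≠ k) (hjk : j ≠ k) (hi : ⟪n i, x⟫ + c i = 0)
    (hj : ⟪n j, x⟫ + c j = 0) (hk : ⟪n k, x⟫ + c k = 0) : x ∈ range p := by
  obtain ⟨l, hil, hjl, hkl⟩ := exists_fourth i j k
  refine ⟨l, ?_⟩
  have huniv : (Finset.univ : Finset (Fin 4)) = {i, j, k, l} :=
    (Finset.eq_univ_of_card _ (by simp [*])).symm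
  obtain ⟨h1, h2, -⟩ := h.expansion x
  rw [huniv] at h1 h2
  simp [hij, hik, hil, hjk, hjl, hkl, hi, hj, hk] at h1 h2
  simpa [h2] using h1

/-- The edge terms, as a function on space. -/
def edgeFun (f : ℝ →+ ℝ) (p n : Fin 4 → Space) (x : Space) : ℝ :=
  (segment ℝ (p 2) (p 3)).indicator (fun _ => f (dihedral (n 0) (n 1))) x +
  (segment ℝ (p 1) (p 3)).indicator (fun _ => f (dihedral (n 0) (n 2))) x +
  (segment ℝ (p 1) (p 2)).indicator (fun _ => f (dihedral (n 0) (n 3))) x +
  (segment ℝ (p 0) (p 3)).indicator (fun _ => f (dihedral (n 1) (n 2))) x +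
  (segment ℝ (p 0) (p 2)).indicator (fun _ => f (dihedral (n 1) (n 3))) x +
  (segment ℝ (p 0) (p 1)).indicator (fun _ => f (dihedral (n 2) (n 3))) x

theorem measurableSet_segment (a b : Space) : MeasurableSet (segment ℝ a b) := by
  rw [← convexHull_pair]
  exact ((toFinite _).isCompact_convexHull (𝕜 := ℝ)).isClosed.measurableSet

theorem integrable_segment (a b : Space) (t : ℝ) :
    Integrable ((segment ℝ a b).indicator fun _ => t) (μH[1] : Measure Space) :=
  (integrable_indicator_iff (measurableSet_segment a b)).2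
    (integrableOn_const (by rw [hausdorffMeasure_segment]; exact edist_ne_top a b))

theorem ae_notMem_finite {s : Set Space} (hs : s.Finite) :
    ∀ᵐ x ∂(μH[1] : Measure Space), x ∉ s := by
  haveI := Measure.nullSingletonClass_hausdorff Space one_pos
  exact measure_eq_zero_iff_ae_notMem.1 (hs.measure_zero _)

theorem IsDual.density_eq {p n : Fin 4 → Space} {c : Fin 4 → ℝ} (h : IsDual p n c) {f : ℝ →+ ℝ}
    (hf : f π = 0) {x : Space} (hv : x ∉ range p) :
    f (2 * π * density (tetra p) x) = edgeFun f p n x := by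
  classical
  simp only [edgeFun, indicator_apply,
    h.mem_segment_iff 0 1 2 3 (by decide), h.mem_segment_iff 0 2 1 3 (by decide),
    h.mem_segment_iff 0 3 1 2 (by decide), h.mem_segment_iff 1 2 0 3 (by decide),
    h.mem_segment_iff 1 3 0 2 (by decide), h.mem_segment_iff 2 3 0 1 (by decide)]
  rw [h.tetra_eq]
  by_cases hx : x ∈ hpoly n c
  swap
  · simp [hx, (hasDensity_hpoly_out n c hx).density_eq]
  rw [(hasDensity_hpoly n c hx).density_eq]
  set b : Fin 4 → ℝ := fun i => ⟪n i, x⟫ + c i
  have hhalf : ∀ i, b i = 0 → (∀ j, j ≠ i → b j ≠ 0) →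
      f (2 * π * frac (activeCone n c x)) = 0 := fun i hi hj => by
    obtain ⟨j, hij⟩ : ∃ j : Fin 4, i ≠ j := exists_ne i |>.imp fun j hj => hj.symm
    rw [frac_activeCone_one (by simpa using (h.normals_independent hij).ne_zero 0) hi hj,
      show 2 * π * (1 / 2) = π by ring, hf]
  have hnone : (∀ i, b i ≠ 0) → f (2 * π * frac (activeCone n c x)) = 0 := fun hb => by
    rw [frac_activeCone_none hb, mul_one, f_two_pi hf]
  have htwo : ∀ i j, i ≠ j → b i = 0 → b j = 0 → (∀ k, k ≠ i → k ≠ j → b k ≠ 0) →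
      f (2 * π * frac (activeCone n c x)) = f (dihedral (n i) (n j)) := fun i j hij hi hj hk => by
    rw [frac_activeCone_two (h.normals_independent hij) hi hj hk]
  have hthree : ∀ i j k, i ≠ j → i ≠ k → j ≠ k → b i = 0 → b j = 0 → b k = 0 → False :=
    fun i j k a₁ a₂ a₃ hi hj hk => hv (h.eq_vertex a₁ a₂ a₃ hi hj hk)
  by_cases h0 : b 0 = 0 <;> by_cases h1 : b 1 = 0 <;> by_cases h2 : b 2 = 0 <;>
    by_cases h3 : b 3 = 0 <;>
    simp only [b] at h0 h1 h2 h3 <;>
    simp only [hx, h0, h1, h2, h3, and_true, and_false, and_self, if_true, if_false, add_zero,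
      zero_add]
  all_goals first
    | exact (hthree 0 1 2 (by decide) (by decide) (by decide) h0 h1 h2).elim
    | exact (hthree 0 1 3 (by decide) (by decide) (by decide) h0 h1 h3).elim
    | exact (hthree 0 2 3 (by decide) (by decide) (by decide) h0 h2 h3).elim
    | exact (hthree 1 2 3 (by decide) (by decide) (by decide) h1 h2 h3).elim
    | exact htwo 0 1 (by decide) h0 h1 (by intro k; fin_cases k <;> simp [b, *])
    | exact htwo 0 2 (by decide) h0 h2 (by intro k; fin_cases k <;> simp [b, *])
    | exact htwo 0 3 (by decide) h0 h3 (by intro k; fin_cases k <;> simp [b, *])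
    | exact htwo 1 2 (by decide) h1 h2 (by intro k; fin_cases k <;> simp [b, *])
    | exact htwo 1 3 (by decide) h1 h3 (by intro k; fin_cases k <;> simp [b, *])
    | exact htwo 2 3 (by decide) h2 h3 (by intro k; fin_cases k <;> simp [b, *])
    | exact hhalf 0 h0 (by intro k; fin_cases k <;> simp [b, *])
    | exact hhalf 1 h1 (by intro k; fin_cases k <;> simp [b, *])
    | exact hhalf 2 h2 (by intro k; fin_cases k <;> simp [b, *])
    | exact hhalf 3 h3 (by intro k; fin_cases k <;> simp [b, *])
    | exact hnone (by intro k; fin_cases k <;> simp [b, *])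

theorem IsDual.integrable {p n : Fin 4 → Space} {c : Fin 4 → ℝ} (h : IsDual p n c) {f : ℝ →+ ℝ}
    (hf : f π = 0) : Integrable (fun x => f (2 * π * density (tetra p) x)) μH[1] := by
  refine Integrable.congr ?_ (f := edgeFun f p n) ((ae_notMem_finite (finite_range p)).mono
    fun x hx => (h.density_eq hf hx).symm)
  exact (((((integrable_segment _ _ _).add (integrable_segment _ _ _)).add
    (integrable_segment _ _ _)).add (integrable_segment _ _ _)).add
    (integrable_segment _ _ _)).add (integrable_segment _ _ _)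

theorem integral_segment (a b : Space) (t : ℝ) :
    ∫ x, (segment ℝ a b).indicator (fun _ => t) x ∂(μH[1] : Measure Space) = dist a b * t := by
  rw [integral_indicator_const t (measurableSet_segment a b), smul_eq_mul, measureReal_def,
    hausdorffMeasure_segment, edist_dist, ENNReal.toReal_ofReal dist_nonneg]

/-- The Dehn invariant of a tetrahedron is the sum over its six edges of length times `f` of the
dihedral angle. -/
theorem IsDual.dehn_eq {p n : Fin 4 → Space} {c : Fin 4 → ℝ} (h : IsDual p n c) {f : ℝ →+ ℝ}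
    (hf : f π = 0) : dehn f (tetra p) =
      dist (p 2) (p 3) * f (dihedral (n 0) (n 1)) + dist (p 1) (p 3) * f (dihedral (n 0) (n 2)) +
      dist (p 1) (p 2) * f (dihedral (n 0) (n 3)) + dist (p 0) (p 3) * f (dihedral (n 1) (n 2)) +
      dist (p 0) (p 2) * f (dihedral (n 1) (n 3)) + dist (p 0) (p 1) * f (dihedral (n 2) (n 3)) := by
  rw [dehn, integral_congr_ae ((ae_notMem_finite (finite_range p)).mono fun x hx =>
    h.density_eq hf hx)]
  simp only [edgeFun]
  have i1 := fun a b t => integrable_segment a b t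
  rw [integral_add, integral_add, integral_add, integral_add, integral_add]
  · simp only [integral_segment]
  all_goals fun_prop (disch := exact i1 _ _ _)

end Fermat.Agent.DehnInvariant
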