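import Fermat.Agent.DehnInvariant.Tetrahedron

/-!
# Hilbert's third problem

A dissection is an arbitrary finite covering by tetrahedra with disjoint interiors; no face-to-face
condition is imposed.
-/

set_option autoImplicit false

noncomputable section

namespace Fermat.Agent.DehnInvariant

open MeasureTheory Metric Set Filter Real Function
open scoped RealInnerProductSpace Pointwise ENNReal

/-- `T` dissects `P`: non-degenerate tetrahedra with union `P` and disjoint interiors. -/
def IsDissection {m : ℕ} (T : Fin m → Fin 4 → Space) (P : Set Space) : Prop :=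
  (∀ k, AffineIndependent ℝ (T k)) ∧ (⋃ k, tetra (T k)) = P ∧
    Pairwise fun k l => Disjoint (interior (tetra (T k))) (interior (tetra (T l)))

/-- `P` and `Q` are dissected into tetrahedra congruent in pairs. -/
def ScissorsCongruent (P Q : Set Space) : Prop :=
  ∃ (m : ℕ) (T : Fin m → Fin 4 → Space) (g : Fin m → Space ≃ᵢ Space),
    IsDissection T P ∧ IsDissection (fun k i => g k (T k i)) Q

theorem tetra_image (g : Space ≃ᵢ Space) (p : Fin 4 → Space) :
    tetra (fun i => g (p i)) = g '' tetra p := by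
  have h := g.toRealAffineIsometryEquiv.toAffineEquiv.toAffineMap.image_convexHull (range p)
  have hg : ⇑g.toRealAffineIsometryEquiv.toAffineEquiv.toAffineMap = g := rfl
  rw [hg, ← range_comp] at h
  exact h.symm

theorem dehn_image (f : ℝ →+ ℝ) (g : Space ≃ᵢ Space) (S : Set Space) :
    dehn f (g '' S) = dehn f S := by
  rw [dehn, dehn, ← (g.measurePreserving_hausdorffMeasure 1).integral_comp
    g.toHomeomorph.measurableEmbedding]
  simp only [density_image]

theorem IsDissection.aedisjoint {m : ℕ} {T : Fin m → Fin 4 → Space} {P : Set Space}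
    (h : IsDissection T P) : Pairwise (AEDisjoint volume on fun k => tetra (T k)) := by
  intro k l hkl
  have hfr : ∀ j, volume (frontier (tetra (T j))) = 0 := fun j =>
    (convex_convexHull ℝ _).addHaar_frontier volume
  refine measure_mono_null ?_ (measure_union_null (hfr k) (hfr l))
  rintro x ⟨hk, hl⟩
  by_contra hx
  rw [mem_union, not_or, frontier, frontier, Set.mem_sdiff, Set.mem_sdiff, not_and_not_right,
    not_and_not_right] at hx
  exact Set.disjoint_left.1 (h.2.2 hkl) (hx.1 (subset_closure hk)) (hx.2 (subset_closure hl))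

theorem IsDissection.volume_eq {m : ℕ} {T : Fin m → Fin 4 → Space} {P : Set Space}
    (h : IsDissection T P) : volume P = ∑ k, volume (tetra (T k)) := by
  rw [← h.2.1, measure_iUnion₀ h.aedisjoint
    (fun k => (isClosed_tetra _).measurableSet.nullMeasurableSet), tsum_fintype]

/-- The invariant is additive for every dissection. -/
theorem IsDissection.dehn_eq {m : ℕ} {T : Fin m → Fin 4 → Space} {P : Set Space}
    (h : IsDissection T P) {f : ℝ →+ ℝ} (hf : f π = 0) :
    dehn f P = ∑ k, dehn f (tetra (T k)) := by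
  choose n c hdual using fun k => exists_isDual (h.1 k)
  unfold dehn
  rw [← integral_finsetSum _ fun k _ => (hdual k).integrable hf]
  refine integral_congr_ae (Eventually.of_forall fun x => ?_)
  have hex : ∀ k, ∃ d, HasDensity (tetra (T k)) x d := fun k => by
    rw [(hdual k).tetra_eq]; exact exists_hasDensity_hpoly _ _ _
  choose d hd using hex
  have hP : HasDensity P x (∑ k, d k) := h.2.1 ▸
    HasDensity.iUnion (fun k => (isClosed_tetra _).measurableSet) h.aedisjoint hd
  simp only [hP.density_eq, fun k => (hd k).density_eq, Finset.mul_sum, map_sum]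

theorem ScissorsCongruent.dehn_eq {P Q : Set Space} (h : ScissorsCongruent P Q) {f : ℝ →+ ℝ}
    (hf : f π = 0) : dehn f P = dehn f Q := by
  obtain ⟨m, T, g, hP, hQ⟩ := h
  rw [hP.dehn_eq hf, hQ.dehn_eq hf]
  simp only [tetra_image, dehn_image]

theorem ScissorsCongruent.volume_eq {P Q : Set Space} (h : ScissorsCongruent P Q) :
    volume P = volume Q := by
  obtain ⟨m, T, g, hP, hQ⟩ := h
  rw [hP.volume_eq, hQ.volume_eq]
  simp only [tetra_image, volume_isometry_image]

theorem scissorsCongruent_congruent {p : Fin 4 → Space} (hp : AffineIndependent ℝ p)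
    (g : Space ≃ᵢ Space) : ScissorsCongruent (tetra p) (g '' tetra p) := by
  refine ⟨1, fun _ => p, fun _ => g, ⟨fun _ => hp, iUnion_const _, Subsingleton.pairwise⟩,
    ⟨fun _ => ?_, by simp [tetra_image, iUnion_const], Subsingleton.pairwise⟩⟩
  exact hp.map' g.toRealAffineIsometryEquiv.toAffineEquiv.toAffineMap g.injective

/-- The cube `[0, a]³`. -/
def cube (a : ℝ) : Set Space := {x | ∀ k, x k ∈ Icc 0 a}

theorem cube_eq_hpoly (a : ℝ) : cube a =
    hpoly (fun q : Fin 3 × Bool => (cond q.2 (-1) 1 : ℝ) • EuclideanSpace.single q.1 (1 : ℝ))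
      (fun q => cond q.2 a 0) := by
  ext x
  simp [cube, hpoly, forall_and, EuclideanSpace.inner_single_left, sub_nonneg,
    neg_add_eq_sub, Prod.forall, Bool.forall_bool]

theorem dihedral_orth {u w : Space} (h : ⟪u, w⟫ = 0) : dihedral u w = π / 2 := by
  simp [dihedral, h]

theorem volume_cube {a : ℝ} (ha : 0 ≤ a) : volume (cube a) = ENNReal.ofReal (a ^ 3) := by
  have h : cube a = WithLp.ofLp ⁻¹' Icc (0 : Fin 3 → ℝ) (fun _ => a) := by
    ext x
    simp [cube, Pi.le_def, forall_and]
  rw [h, (PiLp.volume_preserving_ofLp (Fin 3)).measure_preimage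
    measurableSet_Icc.nullMeasurableSet, Real.volume_Icc_pi]
  simp [ENNReal.ofReal_pow ha]

/-- A cube has Dehn invariant zero. -/
theorem dehn_cube {a : ℝ} (ha : 0 < a) {f : ℝ →+ ℝ} (hf : f π = 0) : dehn f (cube a) = 0 := by
  set n := fun q : Fin 3 × Bool => (cond q.2 (-1) 1 : ℝ) • EuclideanSpace.single q.1 (1 : ℝ)
    with hn
  set c := fun q : Fin 3 × Bool => cond q.2 a 0 with hc
  have hfin : {x : Space | ∀ k, x k = 0 ∨ x k = a}.Finite := by
    refine Set.Finite.of_injOn (f := WithLp.ofLp) (t := Set.pi univ fun _ : Fin 3 => {0, a})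
      ?_ (WithLp.ofLp_injective 2).injOn (Finite.pi fun _ => toFinite _)
    intro x hx k _
    simpa using hx k
  rw [dehn, ← integral_zero Space ℝ (μ := (μH[1] : Measure Space))]
  refine integral_congr_ae ((ae_notMem_finite hfin).mono fun x hx => ?_)
  simp only [mem_ofPred_eq, not_forall, not_or] at hx
  obtain ⟨k₀, hk0, hka⟩ := hx
  show f (2 * π * density (cube a) x) = 0
  rw [cube_eq_hpoly, ← hn, ← hc]
  by_cases hP : x ∈ hpoly n c
  swap
  · simp [(hasDensity_hpoly_out n c hP).density_eq]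
  rw [(hasDensity_hpoly n c hP).density_eq]
  have hval : ∀ k, (⟪n (k, false), x⟫ + c (k, false) = x k) ∧
      (⟪n (k, true), x⟫ + c (k, true) = a - x k) := fun k => by
    simp [hn, hc, EuclideanSpace.inner_single_left, neg_add_eq_sub]
  set σ : Fin 3 → ℝ := fun k => if x k = 0 then 1 else if x k = a then -1 else 0 with hσ
  set u := fun k => σ k • EuclideanSpace.single k (1 : ℝ) with hu
  have hσ0 : σ k₀ = 0 := by simp [hσ, hk0, hka]
  have hu0 : ∀ v, ⟪u k₀, v⟫ = 0 := fun v => by simp [hu, hσ0]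
  have hset : activeCone n c x = {v | ∀ k, 0 ≤ ⟪u k, v⟫} := by
    ext v
    simp only [activeCone, mem_ofPred_eq, Prod.forall, Bool.forall_bool, (hval _).1, (hval _).2]
    refine forall_congr' fun k => ?_
    by_cases h0 : x k = 0
    · simp [h0, hu, hσ, hn, ha.ne']
    by_cases h1 : x k = a
    · simp [h1, hu, hσ, hn, ha.ne']
    · simp [h0, h1, hu, hσ, sub_eq_zero, Ne.symm h1]
  obtain ⟨k₁, k₂, h01, h02, h12⟩ : ∃ k₁ k₂ : Fin 3, k₀ ≠ k₁ ∧ k₀ ≠ k₂ ∧ k₁ ≠ k₂ := by
    clear hk0 hka hσ0 hu0
    revert k₀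
    decide
  have horth : ⟪u k₁, u k₂⟫ = 0 := by
    simp [hu, real_inner_smul_left, real_inner_smul_right, EuclideanSpace.inner_single_left, h12]
  have hset2 : activeCone n c x = {v | 0 ≤ ⟪u k₁, v⟫ ∧ 0 ≤ ⟪u k₂, v⟫} := by
    rw [hset]
    ext v
    refine ⟨fun h => ⟨h k₁, h k₂⟩, fun h k => ?_⟩
    rcases eq_or_ne k k₀ with rfl | hk
    · exact (hu0 v).ge
    have : k = k₁ ∨ k = k₂ := by omega
    rcases this with rfl | rfl
    exacts [h.1, h.2]
  rw [hset2]
  by_cases h1 : u k₁ = 0
  · by_cases h2 : u k₂ = 0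
    · simp [h1, h2, frac_univ, f_two_pi hf]
    · have hh : {v : Space | 0 ≤ ⟪u k₁, v⟫ ∧ 0 ≤ ⟪u k₂, v⟫} = {v | 0 ≤ ⟪u k₂, v⟫} := by
        ext; simp [h1]
      rw [hh, frac_half h2, show 2 * π * (1 / 2) = π by ring, hf]
  · by_cases h2 : u k₂ = 0
    · have hh : {v : Space | 0 ≤ ⟪u k₁, v⟫ ∧ 0 ≤ ⟪u k₂, v⟫} = {v | 0 ≤ ⟪u k₁, v⟫} := by
        ext; simp [h2]
      rw [hh, frac_half h1, show 2 * π * (1 / 2) = π by ring, hf]
    · have hli : LinearIndependent ℝ ![u k₁, u k₂] := by
        rw [LinearIndependent.pair_iff' h1]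
        intro r hr
        have := congrArg (fun v => ⟪v, u k₂⟫) hr
        simp only [real_inner_smul_left, horth, mul_zero] at this
        exact h2 (inner_self_eq_zero.1 this.symm)
      rw [frac_wedge hli, dihedral_orth horth, show 2 * π * (π / 2 / (2 * π)) = π / 2 by field_simp,
        f_pi_half hf]

/-- Some additive `f` kills `π` but not `θ`, if `θ` is no rational multiple of `π`. -/
theorem exists_additive {θ : ℝ} (h : ∀ q : ℚ, θ ≠ q * π) : ∃ f : ℝ →+ ℝ, f π = 0 ∧ f θ ≠ 0 := by
  have hmem : θ ∉ Submodule.span ℚ {π} := fun hm => by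
    obtain ⟨q, hq⟩ := Submodule.mem_span_singleton.1 hm
    exact h q (by rw [← hq, Rat.smul_def])
  obtain ⟨φ, hφ, hbot⟩ := Submodule.exists_dual_map_eq_bot_of_notMem hmem inferInstance
  refine ⟨(Rat.castHom ℝ).toAddMonoidHom.comp φ.toAddMonoidHom, ?_, by simpa using hφ⟩
  have : φ π = 0 := by
    have hm := Submodule.mem_map_of_mem (f := φ) (Submodule.mem_span_singleton_self (R := ℚ) π)
    rw [hbot] at hm
    simpa using hm
  simp [this]

theorem arccos_third_ne (q : ℚ) : arccos (1 / 3) ≠ q * π := fun h => by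
  have hc : cos (arccos (1 / 3)) = 1 / 3 := cos_arccos (by norm_num) (by norm_num)
  have hn := niven ⟨q, h⟩ ⟨1 / 3, by push_cast; exact hc⟩
  rw [hc] at hn
  norm_num at hn

/-- A regular tetrahedron: dual coordinates, and all six dihedral angles `arccos (1/3)`. -/
theorem regular_dual {p : Fin 4 → Space} {s : ℝ} (hs : 0 < s)
    (hp : ∀ i j, i ≠ j → dist (p i) (p j) = s) :
    ∃ n c, IsDual p n c ∧ ∀ i j, i ≠ j → dihedral (n i) (n j) = arccos (1 / 3) := by
  set g : Space := (1 / 4 : ℝ) • (p 0 + p 1 + p 2 + p 3) with hg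
  set d : Fin 4 → Space := fun i => p i - g with hd
  have hsum : d 0 + d 1 + d 2 + d 3 = 0 := by simp only [hd, hg]; module
  clear_value d g
  have hdd : ∀ i j, i ≠ j → ⟪d i, d i⟫ + ⟪d j, d j⟫ - 2 * ⟪d i, d j⟫ = s ^ 2 := fun i j hij => by
    have hsub : d i - d j = p i - p j := by simp [hd]
    rw [← hp i j hij, dist_eq_norm, ← hsub, ← real_inner_self_eq_norm_sq, inner_sub_left,
      inner_sub_right, inner_sub_right, real_inner_comm (d i) (d j)]
    ring
  have hz : ∀ i, ⟪d i, d 0⟫ + ⟪d i, d 1⟫ + ⟪d i, d 2⟫ + ⟪d i, d 3⟫ = 0 := fun i => by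
    simp only [← inner_add_right, hsum, inner_zero_right]
  have h01 := hdd 0 1 (by decide); have h02 := hdd 0 2 (by decide)
  have h03 := hdd 0 3 (by decide); have h12 := hdd 1 2 (by decide)
  have h13 := hdd 1 3 (by decide); have h23 := hdd 2 3 (by decide)
  have z0 := hz 0; have z1 := hz 1; have z2 := hz 2; have z3 := hz 3
  rw [real_inner_comm (d 0) (d 1)] at z1
  rw [real_inner_comm (d 0) (d 2), real_inner_comm (d 1) (d 2)] at z2
  rw [real_inner_comm (d 0) (d 3), real_inner_comm (d 1) (d 3), real_inner_comm (d 2) (d 3)] at z3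
  have hdiag : ∀ i, ⟪d i, d i⟫ = 3 * s ^ 2 / 8 := fun i =>
    match i with
    | 0 => by linarith
    | 1 => by linarith
    | 2 => by linarith
    | 3 => by linarith
  have hoff : ∀ i j, i ≠ j → ⟪d i, d j⟫ = -(s ^ 2 / 8) := fun i j hij => by
    linarith [hdd i j hij, hdiag i, hdiag j]
  refine ⟨fun i => (2 / s ^ 2) • d i, fun i => 1 / 4 - ⟪(2 / s ^ 2) • d i, g⟫, fun i j => ?_,
    fun i j hij => ?_⟩
  · have : ⟪(2 / s ^ 2) • d i, p j⟫ + (1 / 4 - ⟪(2 / s ^ 2) • d i, g⟫) =
        1 / 4 + 2 / s ^ 2 * ⟪d i, d j⟫ := by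
      simp only [hd, real_inner_smul_left, inner_sub_left, inner_sub_right]; ring
    rw [this]
    split_ifs with h
    · rw [h, hdiag]; field_simp; ring
    · rw [hoff i j h]; field_simp; ring
  · rw [dihedral]
    congr 1
    have hnorm : ∀ k, ‖d k‖ ^ 2 = 3 * s ^ 2 / 8 := fun k => by
      rw [← real_inner_self_eq_norm_sq, hdiag]
    rw [real_inner_smul_left, real_inner_smul_right, norm_smul, norm_smul, hoff i j hij,
      show ‖d j‖ = ‖d i‖ from (sq_eq_sq₀ (norm_nonneg _) (norm_nonneg _)).1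
        ((hnorm j).trans (hnorm i).symm),
      Real.norm_eq_abs, abs_of_pos (by positivity : 0 < 2 / s ^ 2)]
    rw [show 2 / s ^ 2 * ‖d i‖ * (2 / s ^ 2 * ‖d i‖) = (2 / s ^ 2) ^ 2 * ‖d i‖ ^ 2 by ring,
      hnorm i]
    field_simp

theorem dehn_regular {p : Fin 4 → Space} {s : ℝ} (hs : 0 < s)
    (hp : ∀ i j, i ≠ j → dist (p i) (p j) = s) {f : ℝ →+ ℝ} (hf : f π = 0) :
    dehn f (tetra p) = 6 * s * f (arccos (1 / 3)) := by
  obtain ⟨n, c, hdual, hang⟩ := regular_dual hs hp
  simp (disch := decide) only [hdual.dehn_eq hf, hp, hang]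
  ring

/-- **Dehn**: no regular tetrahedron is scissors congruent to a cube. -/
theorem regular_not_scissors_cube {p : Fin 4 → Space} {s : ℝ} (hs : 0 < s)
    (hp : ∀ i j, i ≠ j → dist (p i) (p j) = s) {a : ℝ} (ha : 0 < a) (g : Space ≃ᵢ Space) :
    ¬ ScissorsCongruent (tetra p) (g '' cube a) := by
  intro h
  obtain ⟨f, hf, hθ⟩ := exists_additive arccos_third_ne
  have := h.dehn_eq hf
  rw [dehn_regular hs hp hf, dehn_image, dehn_cube ha hf] at this
  rcases mul_eq_zero.1 this with h0 | h0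
  · linarith
  · exact hθ h0

theorem exists_cube_volume {p : Fin 4 → Space} (hp : AffineIndependent ℝ p) :
    ∃ a > 0, volume (cube a) = volume (tetra p) := by
  have hpos : 0 < (volume (tetra p)).toReal := by
    refine ENNReal.toReal_pos ?_
      (((finite_range p).isCompact_convexHull (𝕜 := ℝ)).measure_ne_top (μ := volume))
    refine (Measure.measure_pos_of_nonempty_interior _ ?_).ne'
    rw [tetra, interior_convexHull_nonempty_iff_affineSpan_eq_top]
    exact hp.affineSpan_eq_top_iff_card_eq_finrank_add_one.2 (by simp)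
  refine ⟨(volume (tetra p)).toReal ^ (1 / 3 : ℝ), rpow_pos_of_pos hpos _, ?_⟩
  rw [volume_cube (by positivity), ← rpow_natCast, ← rpow_mul hpos.le]
  norm_num
  exact
    (((finite_range p).isCompact_convexHull (𝕜 := ℝ)).measure_ne_top (μ := volume))

/-- Base `0, e₁, e₂`, apex `e₃`. -/
def cornerTetra : Fin 4 → Space := ![0, !₂[1, 0, 0], !₂[0, 1, 0], !₂[0, 0, 1]]

/-- The same base, apex `e₁ + e₃`. -/
def pathTetra : Fin 4 → Space := ![0, !₂[1, 0, 0], !₂[0, 1, 0], !₂[1, 0, 1]]

theorem corner_isDual : IsDual cornerTetra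
    ![!₂[-1, -1, -1], !₂[1, 0, 0], !₂[0, 1, 0], !₂[0, 0, 1]] ![1, 0, 0, 0] := by
  intro i j
  fin_cases i <;> fin_cases j <;> simp [cornerTetra, PiLp.inner_apply, Fin.sum_univ_three, -inner_self_eq_norm_sq_to_K]

theorem path_isDual : IsDual pathTetra
    ![!₂[-1, -1, 0], !₂[1, 0, -1], !₂[0, 1, 0], !₂[0, 0, 1]] ![1, 0, 0, 0] := by
  intro i j
  fin_cases i <;> fin_cases j <;> simp [pathTetra, PiLp.inner_apply, Fin.sum_univ_three, -inner_self_eq_norm_sq_to_K]

theorem dehn_path {f : ℝ →+ ℝ} (hf : f π = 0) : dehn f (tetra pathTetra) = 0 := by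
  have h2 := f_pi_half hf
  have h4 : f (π / 4) = 0 := by
    have h : f (π / 4) + f (π / 4) = 0 := by rw [← map_add, ← h2]; congr 1; ring
    linarith
  have h3 : f (π / 3) = 0 := by
    have h : f (π / 3) + f (π / 3) + f (π / 3) = 0 := by
      rw [← map_add, ← map_add, ← hf]; congr 1; ring
    linarith
  have hq : arccos (1 / √2) = π / 4 := by
    rw [show (1 : ℝ) / √2 = cos (π / 4) by
      rw [cos_pi_div_four]; field_simp; norm_num, arccos_cos (by positivity) (by linarith [pi_pos])]
  have ht : arccos (1 / 2) = π / 3 := by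
    rw [← cos_pi_div_three, arccos_cos (by positivity) (by linarith [pi_pos])]
  rw [path_isDual.dehn_eq hf]
  simp [dihedral, EuclideanSpace.norm_eq, PiLp.inner_apply, Fin.sum_univ_three, h2,
    show (1 : ℝ) + 1 = 2 by norm_num, Real.mul_self_sqrt] at *
  simp [hq, ht, h3, h4]

theorem dehn_corner {f : ℝ →+ ℝ} (hf : f π = 0) :
    dehn f (tetra cornerTetra) = 3 * √2 * f (arccos (1 / √3)) := by
  rw [corner_isDual.dehn_eq hf]
  simp [cornerTetra, dihedral, EuclideanSpace.dist_eq, EuclideanSpace.norm_eq, PiLp.inner_apply,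
    Fin.sum_univ_three, f_pi_half hf]
  norm_num
  ring

theorem arccos_inv_sqrt_three_ne (q : ℚ) : arccos (1 / √3) ≠ q * π := fun h => by
  have hle : 1 / √3 ≤ 1 := by
    rw [div_le_one (by positivity)]; exact one_le_sqrt.2 (by norm_num)
  have hc : cos (arccos (1 / √3)) = 1 / √3 :=
    cos_arccos (le_trans (by norm_num) (by positivity : (0 : ℝ) ≤ 1 / √3)) hle
  have hc2 : cos (2 * arccos (1 / √3)) = -1 / 3 := by
    rw [cos_two_mul, hc, div_pow, sq_sqrt (by norm_num)]; norm_num
  have hn := niven (θ := 2 * arccos (1 / √3)) ⟨2 * q, by rw [h]; push_cast; ring⟩ ⟨-1 / 3, by push_cast; exact hc2⟩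
  rw [hc2] at hn
  norm_num at hn

/-- **Hilbert's question**: equal bases, equal heights, not scissors congruent. -/
theorem corner_not_scissors_path :
    ¬ ScissorsCongruent (tetra cornerTetra) (tetra pathTetra) := by
  intro h
  obtain ⟨f, hf, hθ⟩ := exists_additive arccos_inv_sqrt_three_ne
  have := h.dehn_eq hf
  rw [dehn_corner hf, dehn_path hf] at this
  rcases mul_eq_zero.1 this with h0 | h0
  · exact absurd h0 (by positivity)
  · exact hθ h0

theorem volume_corner_eq_path :
    volume (tetra cornerTetra) = volume (tetra pathTetra) := by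
  set A : Space →ₗ[ℝ] Space := Matrix.toEuclideanLin !![1, 0, 1; 0, 1, 0; 0, 0, 1]
  have hA : ∀ i, A (cornerTetra i) = pathTetra i := fun i => by
    fin_cases i <;> ext k <;> fin_cases k <;>
      simp [A, cornerTetra, pathTetra, Matrix.toLpLin_apply,
        Fin.sum_univ_three]
  have himg : tetra pathTetra = A '' tetra cornerTetra := by
    rw [tetra, tetra, A.image_convexHull, ← range_comp]
    congr 2
    exact funext fun i => (hA i).symm
  have hdet : LinearMap.det A = 1 := by
    simp [A, Matrix.toEuclideanLin, Matrix.toLpLin_eq_toLin, LinearMap.det_toLin, Matrix.det_fin_three]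
  rw [himg, Measure.addHaar_image_linearMap, hdet]
  simp

end Fermat.Agent.DehnInvariant
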