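import Fermat.Agent.DehnInvariant.Density

/-!
# The share of the ball in half-spaces and wedges
-/

set_option autoImplicit false

noncomputable section

namespace Fermat.Agent.DehnInvariant

open MeasureTheory Metric Set Filter Real
open scoped RealInnerProductSpace Pointwise ENNReal

/-- The dihedral angle of a wedge with inward normals `u`, `w`: the supplement of their angle. -/
def dihedral (u w : Space) : ℝ := arccos (-⟪u, w⟫ / (‖u‖ * ‖w‖))

theorem frac_univ : frac univ = 1 := by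
  rw [frac, univ_inter, div_self (volume_ball_toReal_pos one_pos).ne']

theorem volume_inner_eq_zero {u : Space} (hu : u ≠ 0) :
    volume {v : Space | ⟪u, v⟫ = 0} = 0 := by
  have h : {v : Space | ⟪u, v⟫ = 0} = (LinearMap.ker (innerSL ℝ u).toLinearMap : Set Space) := by
    ext v; simp
  rw [h]
  refine Measure.addHaar_submodule _ _ fun htop => hu ?_
  have hu' : u ∈ LinearMap.ker (innerSL ℝ u).toLinearMap := htop ▸ Submodule.mem_top
  simpa using hu'

theorem frac_half {u : Space} (hu : u ≠ 0) : frac {v | 0 ≤ ⟪u, v⟫} = 1 / 2 := by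
  have hmC : MeasurableSet ({v : Space | 0 ≤ ⟪u, v⟫}) :=
    (isClosed_le continuous_const (by fun_prop)).measurableSet
  have hmD : MeasurableSet ({v : Space | ⟪u, v⟫ ≤ 0}) :=
    (isClosed_le (by fun_prop) continuous_const).measurableSet
  have hsym : frac {v | ⟪u, v⟫ ≤ 0} = frac {v | 0 ≤ ⟪u, v⟫} := by
    rw [← frac_preimage (LinearIsometryEquiv.neg ℝ) {v | 0 ≤ ⟪u, v⟫}]
    congr 1
    ext v; simp
  have hadd : volume ({v : Space | 0 ≤ ⟪u, v⟫} ∩ closedBall 0 1) +
      volume ({v : Space | ⟪u, v⟫ ≤ 0} ∩ closedBall 0 1) = volume (closedBall (0 : Space) 1) := by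
    rw [← measure_union₀ (hmD.inter measurableSet_closedBall).nullMeasurableSet,
      ← union_inter_distrib_right]
    · congr 1
      rw [inter_eq_right]
      exact fun v _ => le_total 0 ⟪u, v⟫
    · exact measure_mono_null (fun v hv => le_antisymm hv.2.1 hv.1.1) (volume_inner_eq_zero hu)
  have h2 : frac {v | 0 ≤ ⟪u, v⟫} + frac {v | ⟪u, v⟫ ≤ 0} = 1 := by
    rw [frac, frac, ← add_div, ← ENNReal.toReal_add (volume_inter_ball_ne_top _ _ _)
      (volume_inter_ball_ne_top _ _ _), hadd, div_self (volume_ball_toReal_pos one_pos).ne']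
  linarith

/-- Coordinates `v ↦ (v 2, (v 0, v 1))`. -/
def axial (v : Space) : ℝ × ℝ × ℝ := (v 2, v 0, v 1)

theorem measurePreserving_axial : MeasurePreserving axial volume volume := by
  have h1 := PiLp.volume_preserving_ofLp (Fin 3)
  have h2 := volume_preserving_piFinSuccAbove (fun _ : Fin 3 => ℝ) 2
  have h3 := volume_preserving_finTwoArrow ℝ
  have h4 := ((MeasurePreserving.id (volume : Measure ℝ)).prod h3).comp (h2.comp h1)
  have he : axial = (Prod.map id MeasurableEquiv.finTwoArrow ∘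
      (MeasurableEquiv.piFinSuccAbove (fun _ : Fin 3 => ℝ) 2 ∘ WithLp.ofLp) :
      Space → ℝ × ℝ × ℝ) := by
    funext v
    rfl
  rw [he]
  exact h4

/-- The sector of opening `θ` at the origin, cut out by the two half-planes. -/
def sector (θ : ℝ) : Set (ℝ × ℝ) := {p | 0 ≤ p.2 ∧ 0 ≤ sin θ * p.1 - cos θ * p.2}

theorem measurableSet_sector (θ : ℝ) : MeasurableSet (sector θ) :=
  (measurableSet_le measurable_const measurable_snd).inter
    (measurableSet_le measurable_const
      (show Measurable fun p : ℝ × ℝ => sin θ * p.1 - cos θ * p.2 by fun_prop))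

/-- Area in polar coordinates of a set of product form. -/
theorem volume_polar {A : Set (ℝ × ℝ)} {R Φ : Set ℝ} (hA : MeasurableSet A)
    (hR : MeasurableSet R) (hΦ : MeasurableSet Φ) (hΦs : Φ ⊆ Ioo (-π) π)
    (h : ∀ r φ, 0 < r → φ ∈ Ioo (-π) π → (polarCoord.symm (r, φ) ∈ A ↔ r ∈ R ∧ φ ∈ Φ)) :
    volume A = (∫⁻ r in Ioi 0, R.indicator ENNReal.ofReal r) * volume Φ := by
  rw [← lintegral_indicator_one hA, ← lintegral_comp_polarCoord_symm,
    show polarCoord.target = Ioi (0 : ℝ) ×ˢ Ioo (-π) π from rfl]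
  calc ∫⁻ p in Ioi (0 : ℝ) ×ˢ Ioo (-π) π,
        ENNReal.ofReal p.1 • A.indicator (1 : ℝ × ℝ → ℝ≥0∞) (polarCoord.symm p)
      = ∫⁻ p in Ioi (0 : ℝ) ×ˢ Ioo (-π) π,
          R.indicator ENNReal.ofReal p.1 * Φ.indicator (1 : ℝ → ℝ≥0∞) p.2 := by
        refine setLIntegral_congr_fun (measurableSet_Ioi.prod measurableSet_Ioo) ?_
        rintro ⟨r, φ⟩ ⟨hr, hφ⟩
        have := h r φ hr hφ
        by_cases h1 : r ∈ R <;> by_cases h2 : φ ∈ Φ <;> simp_all
    _ = _ := by
        rw [Measure.volume_eq_prod, ← Measure.prod_restrict,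
          lintegral_prod_mul (ENNReal.measurable_ofReal.indicator hR).aemeasurable
            (measurable_one.indicator hΦ).aemeasurable, lintegral_indicator_one hΦ,
          Measure.restrict_apply hΦ, inter_eq_left.2 hΦs]

theorem sector_volume {θ : ℝ} (h0 : 0 < θ) (hπ : θ < π) (t : ℝ) :
    ENNReal.ofReal (2 * π) * volume ({p : ℝ × ℝ | p.1 ^ 2 + p.2 ^ 2 ≤ t} ∩ sector θ) =
      ENNReal.ofReal θ * volume {p : ℝ × ℝ | p.1 ^ 2 + p.2 ^ 2 ≤ t} := by
  have hD : MeasurableSet {p : ℝ × ℝ | p.1 ^ 2 + p.2 ^ 2 ≤ t} :=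
    measurableSet_le (by fun_prop) measurable_const
  have hR : MeasurableSet {r : ℝ | r ^ 2 ≤ t} := measurableSet_le (by fun_prop) measurable_const
  have hsq : ∀ r φ : ℝ, (r * cos φ) ^ 2 + (r * sin φ) ^ 2 = r ^ 2 := fun r φ => by
    linear_combination r ^ 2 * sin_sq_add_cos_sq φ
  have hfull := volume_polar hD hR measurableSet_Ioo Subset.rfl (fun r φ _ hφ => by
    simp [hsq, hφ.1, hφ.2])
  have hsec := volume_polar (hD.inter (measurableSet_sector θ)) hR
    (Φ := Icc 0 θ) measurableSet_Icc (Icc_subset_Ioo (by linarith [pi_pos]) hπ)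
    (fun r φ hr hφ => by
      have hs : sin θ * (r * cos φ) - cos θ * (r * sin φ) = r * sin (θ - φ) := by
        rw [sin_sub]; ring
      simp only [polarCoord_symm_apply, sector, mem_inter_iff, mem_ofPred_eq, hsq, hs,
        mem_Icc, mul_nonneg_iff_of_pos_left hr]
      refine and_congr_right fun _ => ⟨fun ⟨h1, h2⟩ => ?_, fun ⟨h1, h2⟩ => ?_⟩
      · have hφ0 : 0 ≤ φ := le_of_not_gt fun h => by
          linarith [sin_neg_of_neg_of_neg_pi_lt h hφ.1]
        refine ⟨hφ0, le_of_not_gt fun h => ?_⟩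
        linarith [sin_neg_of_neg_of_neg_pi_lt (show θ - φ < 0 by linarith) (by linarith [hφ.2])]
      · exact ⟨sin_nonneg_of_nonneg_of_le_pi h1 hφ.2.le,
          sin_nonneg_of_nonneg_of_le_pi (by linarith) (by linarith)⟩)
  rw [hfull, hsec, Real.volume_Icc, Real.volume_Ioo, sub_zero,
    show π - -π = 2 * π by ring]
  ring

theorem frac_model {θ : ℝ} (h0 : 0 < θ) (hπ : θ < π) :
    frac {v : Space | 0 ≤ v 1 ∧ 0 ≤ sin θ * v 0 - cos θ * v 1} = θ / (2 * π) := by
  set C := {v : Space | 0 ≤ v 1 ∧ 0 ≤ sin θ * v 0 - cos θ * v 1}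
  set D : Set (ℝ × ℝ × ℝ) := {q | q.2.1 ^ 2 + q.2.2 ^ 2 ≤ 1 - q.1 ^ 2}
  set S : Set (ℝ × ℝ × ℝ) := D ∩ (Prod.snd ⁻¹' sector θ)
  have hD : MeasurableSet D := measurableSet_le (by fun_prop) (by fun_prop)
  have hS : MeasurableSet S := hD.inter (measurable_snd (measurableSet_sector θ))
  have hball : closedBall (0 : Space) 1 = axial ⁻¹' D := by
    ext v
    rw [mem_closedBall, dist_zero_right, EuclideanSpace.norm_eq, Real.sqrt_le_one,
      Fin.sum_univ_three]
    simp only [mem_preimage, D, axial, mem_ofPred_eq, Real.norm_eq_abs, sq_abs]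
    constructor <;> intro h <;> linarith
  have hC : C ∩ closedBall 0 1 = axial ⁻¹' S := by
    rw [hball, inter_comm]; rfl
  have key : ENNReal.ofReal (2 * π) * volume S = ENNReal.ofReal θ * volume D := by
    rw [Measure.volume_eq_prod, Measure.prod_apply hS, Measure.prod_apply hD,
      ← lintegral_const_mul _ (measurable_measure_prodMk_left hS),
      ← lintegral_const_mul _ (measurable_measure_prodMk_left hD)]
    exact lintegral_congr fun z => sector_volume h0 hπ (1 - z ^ 2)
  have hvS : volume (C ∩ closedBall 0 1) = volume S := by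
    rw [hC, measurePreserving_axial.measure_preimage hS.nullMeasurableSet]
  have hvD : volume (closedBall (0 : Space) 1) = volume D := by
    rw [hball, measurePreserving_axial.measure_preimage hD.nullMeasurableSet]
  have := congrArg ENNReal.toReal key
  rw [ENNReal.toReal_mul, ENNReal.toReal_mul, ENNReal.toReal_ofReal h0.le,
    ENNReal.toReal_ofReal (by positivity), ← hvS, ← hvD] at this
  rw [frac, div_eq_div_iff (volume_ball_toReal_pos one_pos).ne' (by positivity)]
  linarith

theorem inner_normalized_abs_lt_one {u w : Space}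
    (h : LinearIndependent ℝ ![u, w]) : |⟪u, w⟫ / (‖u‖ * ‖w‖)| < 1 := by
  have hu : u ≠ 0 := by simpa using h.ne_zero 0
  have hw : w ≠ 0 := by simpa using h.ne_zero 1
  refine lt_of_le_of_ne (abs_real_inner_div_norm_mul_norm_le_one u w) fun he => ?_
  obtain ⟨-, r, -, hr⟩ :=
    (abs_real_inner_div_norm_mul_norm_eq_one_iff u w).1 he
  exact ((LinearIndependent.pair_iff' hu).1 h) r hr.symm

/-- A wedge fills `θ / 2π` of the ball, `θ` its dihedral angle. -/
theorem frac_wedge {u w : Space} (h : LinearIndependent ℝ ![u, w]) :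
    frac {v | 0 ≤ ⟪u, v⟫ ∧ 0 ≤ ⟪w, v⟫} = dihedral u w / (2 * π) := by
  have hu : u ≠ 0 := by simpa using h.ne_zero 0
  have hw : w ≠ 0 := by simpa using h.ne_zero 1
  obtain ⟨hlo, hhi⟩ := abs_lt.1 (inner_normalized_abs_lt_one h)
  set θ := dihedral u w with hθ
  have hcos : cos θ = -⟪u, w⟫ / (‖u‖ * ‖w‖) := by
    rw [hθ, dihedral, cos_arccos] <;> rw [neg_div] <;> linarith
  have h0 : 0 < θ := by
    rw [hθ, dihedral, arccos_pos, neg_div]; linarith
  have hπ : θ < π := by
    rw [hθ, dihedral, arccos_lt_pi, neg_div]; linarith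
  have hs : 0 < sin θ := sin_pos_of_pos_of_lt_pi h0 hπ
  set e1 := ‖u‖⁻¹ • u with he1d
  set a := ‖w‖⁻¹ • w with had
  have hue : u = ‖u‖ • e1 := by simp [e1, norm_ne_zero_iff.2 hu]
  have hwa : w = ‖w‖ • a := by simp [a, norm_ne_zero_iff.2 hw]
  have h11 : ⟪e1, e1⟫ = 1 := by
    rw [he1d, real_inner_self_eq_norm_sq, norm_smul, norm_inv, norm_norm,
      inv_mul_cancel₀ (norm_ne_zero_iff.2 hu), one_pow]
  have haa : ⟪a, a⟫ = 1 := by
    rw [had, real_inner_self_eq_norm_sq, norm_smul, norm_inv, norm_norm,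
      inv_mul_cancel₀ (norm_ne_zero_iff.2 hw), one_pow]
  have h1a : ⟪e1, a⟫ = -cos θ := by
    rw [hcos, he1d, had, real_inner_smul_left, real_inner_smul_right]
    field_simp
  clear_value e1 a
  set e0 := (sin θ)⁻¹ • (a + cos θ • e1) with he0d
  have hwe : w = ‖w‖ • (sin θ • e0 - cos θ • e1) := by
    rw [he0d, smul_smul, mul_inv_cancel₀ hs.ne', one_smul, add_sub_cancel_right]
    exact hwa
  have h10 : ⟪e1, e0⟫ = 0 := by
    rw [he0d, real_inner_smul_right, inner_add_right, real_inner_smul_right, h1a, h11]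
    ring
  have h00 : ⟪e0, e0⟫ = 1 := by
    rw [he0d]
    simp only [real_inner_smul_left, real_inner_smul_right, inner_add_left, inner_add_right,
      haa, h11, h1a, real_inner_comm e1 a]
    field_simp
    linear_combination -(sin_sq_add_cos_sq θ)
  have hon : Orthonormal ℝ (({0, 1} : Set (Fin 3)).domRestrict ![e0, e1, 0]) := by
    have key : ∀ i j : Fin 3, (i = 0 ∨ i = 1) → (j = 0 ∨ j = 1) →
        ⟪(![e0, e1, 0] : Fin 3 → Space) i, (![e0, e1, 0] : Fin 3 → Space) j⟫ =
          if i = j then 1 else 0 := by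
      rintro i j (rfl | rfl) (rfl | rfl) <;>
        simp [h00, h10, h11, real_inner_comm e1 e0, -inner_self_eq_norm_sq_to_K]
    rw [orthonormal_iff_ite]
    intro i j
    simpa [Set.domRestrict_apply, Subtype.ext_iff] using key i j i.2 j.2
  obtain ⟨b, hb⟩ := hon.exists_orthonormalBasis_extension_of_card_eq (by simp)
  have hb0 : b 0 = e0 := by simpa using hb 0 (by simp)
  have hb1 : b 1 = e1 := by simpa using hb 1 (by simp)
  clear_value e0
  have hset : {v : Space | 0 ≤ ⟪u, v⟫ ∧ 0 ≤ ⟪w, v⟫} =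
      b.repr ⁻¹' {v : Space | 0 ≤ v 1 ∧ 0 ≤ sin θ * v 0 - cos θ * v 1} := by
    ext v
    simp only [mem_ofPred_eq, mem_preimage, OrthonormalBasis.repr_apply_apply, hb0, hb1]
    conv_lhs => rw [hue, hwe]
    rw [real_inner_smul_left, real_inner_smul_left, inner_sub_left, real_inner_smul_left,
      real_inner_smul_left, mul_nonneg_iff_of_pos_left (norm_pos_iff.2 hu),
      mul_nonneg_iff_of_pos_left (norm_pos_iff.2 hw)]
  rw [hset, frac_preimage, frac_model h0 hπ]

end Fermat.Agent.DehnInvariant
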